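import Fermat.Agent.S48.H150.F1Fin
import Fermat.Agent.S48.H76.Avatar
import Fermat.Agent.S48.H136.RawES1

/-!
# S48 / Tower A1 / A1-FF, leaves FF-ALG + HI1 (helper150), part 3: the unconditional statements

From helper76's analytic avatar `H76.pFun M a` of the division value `P_a`
(`infExp_pFun`, `pFun_mem_holN`, `pFun_smul_Gamma1`):

* `divRel M`            : every `P_a` is a root of a nonzero polynomial over `ℚ[j]`       (FF-ALG);
* `exists_coord_F1`, `exists_coord_F1p` : `L·F1(M)` and `L·F1(M; p)` are finite over `L(j)`,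
  for EVERY field `L ⊇ ℚ`;  `ff1_F1`, `ff1_F1p` : they are `FF1` (RR library) over `L = L̄`;
* `corrInputs_hecke`    : `F1.CorrInputs (beta1 L M p) (alpha1 L M p)`, all `M, p ≠ 0`;
* `corrInputs_heckeT`   : `F1.CorrInputs (alpha1 L M p) (beta1 L M p)`;
* `hi1 : H136.HI1Statement`                                                                (HI1);
* `heckeL_eq`, `heckeTL_eq` : `F1.heckeL`, `F1.heckeTL` ARE the Prelude correspondences.
-/

set_option autoImplicit false
set_option linter.style.haveILetI false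

noncomputable section

open Polynomial ModularCurve UpperHalfPlane CongruenceSubgroup AlgebraicCurve IntermediateField
open scoped MatrixGroups

namespace Fermat.Agent.S48.H150

open Fermat.Agent.S24 Fermat.Agent.S24.H997 Fermat.Agent.S48.H828 Fermat.Agent.S48.F1

theorem gamma_le_gamma1 {M : ℕ} {γ : SL(2, ℤ)} (hγ : γ ∈ Gamma M) : γ ∈ Gamma1 M := by
  rw [Gamma_mem] at hγ
  rw [Gamma1_mem]
  exact ⟨hγ.1, hγ.2.2.2, hγ.2.2.1⟩

/-- the avatar of `P_a` lies in `iactRing` over `ℂ`. -/
theorem pFun_mem_iactRing_C (M : ℕ) [NeZero M] (a : ZMod M) :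
    H76.pFun M a ∈ iactRing (RingHom.id ℂ) M :=
  mem_iactRing_of_holN (H76.pFun_mem_holN M a) fun γ hγ =>
    funext fun τ => H76.pFun_smul_Gamma1 M a γ (gamma_le_gamma1 hγ) τ

/-- **FF-ALG.**  Every division value `P_a` is a root of a nonzero polynomial over `ℚ[j]`. -/
theorem divRel (M : ℕ) [NeZero M] : DivRel M := fun a ha => by
  refine algRel_rat_of_infExp (pFun_mem_iactRing_C M a) ?_
  have h := H76.infExp_pFun M ha
  rwa [← coeffMap_divGenC (algebraMap ℚ ℂ), divGenC_rat] at h

section Field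

variable (L : Type*) [Field L] [Algebra ℚ L]

/-- `L·F1(M)` is finite over `L(j)`. -/
theorem exists_coord_F1 (M : ℕ) [NeZero M] :
    ∃ x : F1L L M, Transcendental L x ∧ FiniteDimensional L⟮x⟯ (F1L L M) :=
  exists_coord_F1L L M (divRel M)

/-- `L·F1(M; p)` is finite over `L(j)`. -/
theorem exists_coord_F1p (M p : ℕ) [NeZero M] [NeZero p] :
    ∃ x : F1pL L M p, Transcendental L x ∧ FiniteDimensional L⟮x⟯ (F1pL L M p) :=
  exists_coord_F1pL L M p (divRel M)

variable [IsAlgClosed L] [CharZero L]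

/-- `L·F1(M)` is a function field of one variable in the sense of the RR library. -/
theorem ff1_F1 (M : ℕ) [NeZero M] : Fermat.Agent.Lib.RR.FF1 L (F1L L M) := by
  obtain ⟨x, hx, hfin⟩ := exists_coord_F1 L M
  haveI := hfin
  exact Fermat.Agent.Lib.RR.H864.ff1 x hx

/-- `L·F1(M; p)` is a function field of one variable in the sense of the RR library. -/
theorem ff1_F1p (M p : ℕ) [NeZero M] [NeZero p] : Fermat.Agent.Lib.RR.FF1 L (F1pL L M p) := by
  obtain ⟨x, hx, hfin⟩ := exists_coord_F1p L M p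
  haveI := hfin
  exact Fermat.Agent.Lib.RR.H864.ff1 x hx

/-- **HI1** for `T_p = α_* β^*`, every `M, p ≠ 0`. -/
theorem corrInputs_hecke (M p : ℕ) [NeZero M] [NeZero p] :
    CorrInputs (beta1 L M p) (alpha1 L M p) :=
  corrInputs_beta_alpha L M p (divRel M)

/-- **HI1** for the transposed correspondence `β_* α^*`. -/
theorem corrInputs_heckeT (M p : ℕ) [NeZero M] [NeZero p] :
    CorrInputs (alpha1 L M p) (beta1 L M p) :=
  corrInputs_alpha_beta L M p (divRel M)

/-- `F1.heckeL` is the Prelude correspondence `α_* β^*`. -/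
theorem heckeL_eq (M p : ℕ) [NeZero M] [NeZero p] :
    ∃ (hβ : (beta1 L M p).toRingHom.IsIntegral) (hα : (alpha1 L M p).toRingHom.IsIntegral)
      (_ : HasPrincipalDivisors L (F1pL L M p)) (hfin : FiniteAlong L (alpha1 L M p))
      (hFI : FundamentalIdentityAlong L (beta1 L M p) hβ)
      (hN : NormFormulaAlong L (alpha1 L M p) hfin),
      heckeL L M p = Pic0.correspondence (beta1 L M p) (alpha1 L M p) hβ hα hFI hfin hN := by
  obtain ⟨hβ, hα, hP, hfin, hFI, hN⟩ := corrInputs_hecke L M p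
  exact ⟨hβ, hα, hP, hfin, hFI, hN, corrOp_eq _ _ hβ hα hFI hfin hN⟩

/-- `F1.heckeTL` is the Prelude correspondence `β_* α^*`. -/
theorem heckeTL_eq (M p : ℕ) [NeZero M] [NeZero p] :
    ∃ (hα : (alpha1 L M p).toRingHom.IsIntegral) (hβ : (beta1 L M p).toRingHom.IsIntegral)
      (_ : HasPrincipalDivisors L (F1pL L M p)) (hfin : FiniteAlong L (beta1 L M p))
      (hFI : FundamentalIdentityAlong L (alpha1 L M p) hα)
      (hN : NormFormulaAlong L (beta1 L M p) hfin),
      heckeTL L M p = Pic0.correspondence (alpha1 L M p) (beta1 L M p) hα hβ hFI hfin hN := by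
  obtain ⟨hα, hβ, hP, hfin, hFI, hN⟩ := corrInputs_heckeT L M p
  exact ⟨hα, hβ, hP, hfin, hFI, hN, corrOp_eq _ _ hα hβ hFI hfin hN⟩

end Field

/-- **HI1** (helper136's shape `H136.HI1Statement`). -/
theorem hi1 : H136.HI1Statement := fun M p _ hM _ _ => by
  haveI : NeZero M := ⟨hM⟩
  exact corrInputs_hecke Fermat.Agent.S18.Qb M p

end Fermat.Agent.S48.H150
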