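import Fermat.Agent.S48.H828.IActField
import Fermat.Agent.S24.Deg.H457_Main

/-!
# S48 / Tower A1 / A1-FF, leaf FF-ALG (helper150), part 1: the generic algebraicity statement

Every element `f` of helper828's ring `iactRing ι M` (holomorphic level-`M` modular functions,
`E`-rational at every cusp) is a root of a MONIC polynomial with coefficients in `E[j]`:
the characteristic polynomial `∏_{g ∈ SL₂(ℤ)/Γ(M)} (T - g • f)` has `SL₂(ℤ)`-invariant
coefficients, and the invariants of `iactRing ι M` are `E[j]` (`H828.iact_invariant_eq_eval₂`).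

Passing to expansions, undoing `q ↦ X^M`, and descending along `ℚ → ℂ` (S24 `Deg457`):

* `algRel_of_infExp` : if `x ∈ ℚ((q))` is the `q`-expansion at `∞` of a holomorphic
  `Γ(M)`-invariant function all of whose `SL₂(ℤ)`-translates have a convergent Laurent expansion in
  `q^{1/M}`, then `x` is a root of a nonzero polynomial over `ℚ[j]`, and `coeffEmb K x` is a root
  of a nonzero polynomial over `K[j]`, for every field `K ⊇ ℚ`.
-/

set_option autoImplicit false
set_option linter.unusedSectionVars false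
set_option linter.style.haveILetI false

noncomputable section

open Polynomial ModularCurve UpperHalfPlane
open scoped MatrixGroups

namespace Fermat.Agent.S48.H150

open Fermat.Agent.S24 Fermat.Agent.S24.H997 Fermat.Agent.S24.H624 Fermat.Agent.S24.Deg457
open Fermat.Agent.S48.H828

/-- `x` is a root of a nonzero polynomial with coefficients in `K[J]`. -/
def AlgRel (K : Type*) [Field K] (J x : LaurentSeries K) : Prop :=
  ∃ Q : K[X][X], Q ≠ 0 ∧ Q.eval₂ (evJ J) x = 0

section Formal

variable {K L : Type*} [Field K] [Field L]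

theorem evJ_comp_eq (φ : LaurentSeries K →+* LaurentSeries L) (ι : K →+* L)
    (hφ : ∀ c : K, φ (algebraMap K (LaurentSeries K) c) = algebraMap L (LaurentSeries L) (ι c))
    (J : LaurentSeries K) :
    φ.comp (evJ J) = (evJ (φ J)).comp (Polynomial.mapRingHom ι) := by
  refine Polynomial.ringHom_ext ?_ ?_
  · intro c
    simp [evJ, hφ]
  · simp [evJ]

/-- transport of a relation along a ring homomorphism of Laurent series fields which is
semilinear over `ι` on constants. -/
theorem eval₂_evJ_map (φ : LaurentSeries K →+* LaurentSeries L) (ι : K →+* L)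
    (hφ : ∀ c : K, φ (algebraMap K (LaurentSeries K) c) = algebraMap L (LaurentSeries L) (ι c))
    (J x : LaurentSeries K) (Q : K[X][X]) :
    (Q.map (Polynomial.mapRingHom ι)).eval₂ (evJ (φ J)) (φ x) = φ (Q.eval₂ (evJ J) x) := by
  rw [Polynomial.eval₂_map, ← evJ_comp_eq φ ι hφ J, Polynomial.hom_eval₂]

theorem AlgRel.map (φ : LaurentSeries K →+* LaurentSeries L) (ι : K →+* L)
    (hφ : ∀ c : K, φ (algebraMap K (LaurentSeries K) c) = algebraMap L (LaurentSeries L) (ι c))
    {J x : LaurentSeries K} (h : AlgRel K J x) : AlgRel L (φ J) (φ x) := by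
  obtain ⟨Q, hQ0, hQ⟩ := h
  refine ⟨Q.map (Polynomial.mapRingHom ι), ?_, ?_⟩
  · rw [Ne, Polynomial.map_eq_zero_iff
      (Polynomial.map_injective ι ι.injective)]
    exact hQ0
  · rw [eval₂_evJ_map φ ι hφ, hQ, map_zero]

theorem qExpand_algebraMap (M : ℕ) [NeZero M] (c : K) :
    qExpand K M (algebraMap K (LaurentSeries K) c) = algebraMap K (LaurentSeries K) c := by
  rw [algebraMap_laurentSeries_eq_single, qExpand_single, mul_zero]

/-- undoing `q ↦ q^M`. -/
theorem eval₂_evJ_qExpand (M : ℕ) [NeZero M] (J x : LaurentSeries K) (Q : K[X][X]) :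
    Q.eval₂ (evJ (qExpand K M J)) (qExpand K M x) = qExpand K M (Q.eval₂ (evJ J) x) := by
  have h := eval₂_evJ_map (qExpand K M) (RingHom.id K) (fun c => qExpand_algebraMap M c) J x Q
  have hid : Polynomial.mapRingHom (RingHom.id K) = RingHom.id K[X] :=
    RingHom.ext fun p => Polynomial.map_id
  rwa [hid, Polynomial.map_id] at h

theorem AlgRel.coeffMap (ι : K →+* L) {J x : LaurentSeries K} (h : AlgRel K J x) :
    AlgRel L (coeffMap ι J) (coeffMap ι x) :=
  h.map (ModularCurve.coeffMap ι) ι (fun c => coeffMap_algebraMap' ι c)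

end Formal

section Ring

variable {E : Type*} [Field E] [CharZero E] (ι : E →+* ℂ) (M : ℕ) [NeZero M]

/-- The action of `SL₂(ℤ)` on `iactRing` factors through the finite quotient by `Γ(M)`. -/
def algQuotHom : (SL(2, ℤ) ⧸ CongruenceSubgroup.Gamma M) →* RingAut (iactRing ι M) :=
  QuotientGroup.lift (CongruenceSubgroup.Gamma M)
    (MulSemiringAction.toRingAut SL(2, ℤ) (iactRing ι M))
    (fun _ hγ => RingEquiv.ext fun f => iact_smul_of_mem_Gamma hγ f)

/-- The action of the finite group `SL₂(ℤ) ⧸ Γ(M)` on `iactRing` (a `def`, not an instance). -/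
@[instance_reducible]
def algQuotAction :
    MulSemiringAction (SL(2, ℤ) ⧸ CongruenceSubgroup.Gamma M) (iactRing ι M) :=
  MulSemiringAction.compHom (iactRing ι M) (algQuotHom ι M)

variable {ι M}

theorem algQuotAction_mk_smul (g : SL(2, ℤ)) (f : iactRing ι M) :
    letI := algQuotAction ι M
    ((g : SL(2, ℤ) ⧸ CongruenceSubgroup.Gamma M) • f : iactRing ι M) = g • f := rfl

/-- the evaluation `E[j] → iactRing`. -/
def algEvJ (ι : E →+* ℂ) (M : ℕ) [NeZero M] : E[X] →+* iactRing ι M :=
  Polynomial.eval₂RingHom (iactC ι M) (iactJ ι M)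

theorem iactExp_comp_algEvJ : (iactExp ι M).comp (algEvJ ι M) = evJ (iactJX E M) := by
  refine Polynomial.ringHom_ext ?_ ?_
  · intro c
    simp only [algEvJ, RingHom.comp_apply, Polynomial.coe_eval₂RingHom, Polynomial.eval₂_C,
      iactExp_C, evJ, AlgHom.toRingHom_eq_coe, RingHom.coe_coe, Polynomial.aeval_C,
      algebraMap_laurentSeries_eq_single]
    rfl
  · simp only [algEvJ, RingHom.comp_apply, Polynomial.coe_eval₂RingHom, Polynomial.eval₂_X,
      iactExp_J, evJ, AlgHom.toRingHom_eq_coe, RingHom.coe_coe, Polynomial.aeval_X]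

/-- **Integrality over `E[j]`.**  Every element of `iactRing ι M` is a root of a monic
polynomial with coefficients in `E[j]`; on expansions. -/
theorem exists_monic_rel (f : iactRing ι M) :
    ∃ P : E[X][X], P.Monic ∧ P.eval₂ (evJ (iactJX E M)) (iactExp ι M f) = 0 := by
  classical
  letI : MulSemiringAction (SL(2, ℤ) ⧸ CongruenceSubgroup.Gamma M) (iactRing ι M) :=
    algQuotAction ι M
  haveI : Finite (SL(2, ℤ) ⧸ CongruenceSubgroup.Gamma M) := iact_finite_quot
  letI : Fintype (SL(2, ℤ) ⧸ CongruenceSubgroup.Gamma M) := Fintype.ofFinite _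
  set G := SL(2, ℤ) ⧸ CongruenceSubgroup.Gamma M
  have hlift : MulSemiringAction.charpoly G f ∈ Polynomial.lifts (algEvJ ι M) := by
    rw [Polynomial.lifts_iff_coeff_lifts]
    intro n
    have hinv : ∀ γ : SL(2, ℤ), γ • (MulSemiringAction.charpoly G f).coeff n
        = (MulSemiringAction.charpoly G f).coeff n := fun γ =>
      MulSemiringAction.smul_coeff_charpoly f n (γ : G)
    obtain ⟨P, hP⟩ := iact_invariant_eq_eval₂ _ hinv
    exact ⟨P, hP.symm⟩
  obtain ⟨P, hP1, -, hP3⟩ := Polynomial.lifts_and_natDegree_eq_and_monic hlift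
    (MulSemiringAction.monic_charpoly G f)
  refine ⟨P, hP3, ?_⟩
  have h0 : (P.map (algEvJ ι M)).eval f = 0 := by
    rw [hP1]
    exact MulSemiringAction.eval_charpoly G f
  rw [Polynomial.eval_map] at h0
  have h1 := congrArg (iactExp ι M) h0
  rwa [Polynomial.hom_eval₂, map_zero, iactExp_comp_algEvJ] at h1

end Ring

/-! ### from an analytic avatar to an algebraic relation -/

section Avatar

variable {M : ℕ} [NeZero M]

/-- `holN M` + `Γ(M)`-invariance = `iactRing` over `ℂ`. -/
theorem mem_iactRing_of_holN {f : ℍ → ℂ} (hf : f ∈ holN M)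
    (hinv : ∀ γ ∈ CongruenceSubgroup.Gamma M, compSL γ f = f) :
    f ∈ iactRing (RingHom.id ℂ) M := by
  refine ⟨hf.1, hinv, fun γ => ?_⟩
  obtain ⟨φ, hφ⟩ := hf.2 γ
  exact ⟨φ, by rwa [coeffMap_id]⟩

/-- an expansion in `q` is an expansion in `X = q^{1/M}`. -/
theorem infExp_qExpand {f : ℍ → ℂ} {φ : LaurentSeries ℂ} (h : InfExp 1 f φ) :
    InfExp M f (qExpand ℂ M φ) := by
  have hM : 0 < M := Nat.pos_of_ne_zero (NeZero.ne M)
  have h1 := h.comp_infAff (M := 1) (N := M) (a := 1) (d := 1) (e := M) 0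
    one_pos one_pos one_pos hM (by ring)
  rw [infRoot_zero, infTwist_one] at h1
  refine h1.congr fun τ => ?_
  rw [infAff_one_zero_one]

/-- **FF-ALG, generic form over `ℂ`.**  The `q`-expansion at `∞` of an element of
`iactRing (id) M` is a root of a monic polynomial over `ℂ[j]`. -/
theorem exists_monic_rel_of_infExp {f : ℍ → ℂ} (hf : f ∈ iactRing (RingHom.id ℂ) M)
    {φ : LaurentSeries ℂ} (hφ : InfExp 1 f φ) :
    ∃ P : ℂ[X][X], P.Monic ∧ P.eval₂ (evJ infJq) φ = 0 := by
  obtain ⟨P, hP, h0⟩ := exists_monic_rel (ι := RingHom.id ℂ) (M := M) ⟨f, hf⟩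
  refine ⟨P, hP, ?_⟩
  have h1 : iactExp (RingHom.id ℂ) M ⟨f, hf⟩ = qExpand ℂ M φ :=
    iactExp_eq (by rw [coeffMap_id]; exact infExp_qExpand hφ)
  have h2 : iactJX ℂ M = qExpand ℂ M infJq := by
    have := iact_coeffMap_JX (ι := RingHom.id ℂ) (M := M)
    rwa [coeffMap_id] at this
  rw [h1, h2, eval₂_evJ_qExpand] at h0
  exact (inf_qExpand_eq_zero_iff (e := M) _).mp h0

/-- **FF-ALG, generic form.**  Let `x ∈ K((q))` (`K ⊆ ℂ` via `ι`) be the `q`-expansion at `∞` of
a holomorphic `Γ(M)`-invariant function all of whose `SL₂(ℤ)`-translates have an expansion in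
`q^{1/M}`.  Then `x` is a root of a nonzero polynomial with coefficients in `K[j]`. -/
theorem algRel_of_infExp {K : Type*} [Field K] [Algebra ℚ K] (ι : K →+* ℂ) {f : ℍ → ℂ}
    (hf : f ∈ iactRing (RingHom.id ℂ) M) {x : LaurentSeries K}
    (hx : InfExp 1 f (coeffMap ι x)) : AlgRel K (JK K) x := by
  obtain ⟨P, hP, h0⟩ := exists_monic_rel_of_infExp hf hx
  have hJ : infJq = coeffMap ι (JK K) := (coeffMap_JK ι).symm
  rw [hJ] at h0
  obtain ⟨Q, hQ0, -, hQ⟩ := exists_relation_of_coeffMap_monic ι (JK K) x _ P hP rfl h0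
  exact ⟨Q, hQ0, hQ⟩

/-- the same for a rational `q`-expansion. -/
theorem algRel_rat_of_infExp {f : ℍ → ℂ} (hf : f ∈ iactRing (RingHom.id ℂ) M)
    {x : LaurentSeries ℚ} (hx : InfExp 1 f (coeffEmb ℂ x)) : AlgRel ℚ jq x := by
  have h := algRel_of_infExp (K := ℚ) (algebraMap ℚ ℂ) hf (x := x) hx
  have hJ : JK ℚ = jq := by
    rw [JK, coeffEmb]
    exact coeffMap_id jq
  rwa [hJ] at h

end Avatar

end Fermat.Agent.S48.H150
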