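import Fermat.Agent.S48.H150.AlgGen
import Fermat.Agent.S24.Deg.H457_Degree
import Fermat.Agent.S24.Mod.H368Gens
import Fermat.Agent.S48.F1.Defs
import Fermat.Agent.S29.H812.Along
import Fermat.Agent.Lib.RR.H864.FF1Bridge

/-!
# S48 / Tower A1 / A1-FF, leaf FF-ALG + HI1 (helper150), part 2: finiteness and `CorrInputs`

Input (`DivRel M`): every division value `P_a = F1.divGen M a` (`a ≠ 0`) is a root of a nonzero
polynomial over `ℚ[j]` (proved in `HI1.lean` from the analytic avatar).

Output, for every field `L ⊇ ℚ` and all `M, p ≠ 0`: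
* `exists_coord_F1L`  : `L·F1(M)` is finite over `L(j)`, `j` transcendental;
* `exists_coord_F1pL` : `L·F1(M; p)` is finite over `L(j)`;
* `corrInputs_of_coord` : for `K` algebraically closed of characteristic `0`, ANY pair of
  `K`-algebra homomorphisms between two function fields of one variable satisfies `F1.CorrInputs`
  (generic engine `S29.H812`);
* `corrInputs_beta_alpha`, `corrInputs_alpha_beta` : `F1.CorrInputs` for `(beta1, alpha1)` and
  for `(alpha1, beta1)` over `ℚ̄`.
-/

set_option autoImplicit false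
set_option linter.unusedSectionVars false
set_option linter.style.haveILetI false

noncomputable section

open Polynomial ModularCurve IntermediateField AlgebraicCurve

namespace Fermat.Agent.S48.H150

open Fermat.Agent.S24 Fermat.Agent.S24.Deg457 Fermat.Agent.S48.F1

/-! ### generic field theory -/

section Generic

variable {K : Type*} [Field K]

/-- relation ⇒ integrality, inside an intermediate field `F ∋ J`. -/
theorem isIntegral_of_algRel (F : IntermediateField K (LaurentSeries K)) {J : LaurentSeries K}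
    (hJF : J ∈ F) (hJ : ∀ t : K[X], t ≠ 0 → aeval J t ≠ 0) (y : F)
    (hy : AlgRel K J (y : LaurentSeries K)) :
    IsIntegral K⟮(⟨J, hJF⟩ : F)⟯ y := by
  obtain ⟨Q, hQ0, hQ⟩ := hy
  have hinc : Function.Injective (algebraMap F (LaurentSeries K)) :=
    (algebraMap F (LaurentSeries K)).injective
  refine (isIntegral_and_natDegree_le_of_relation (K := K)
    (AdjoinSimple.gen K (⟨J, hJF⟩ : F)) ?_ y Q hQ0 Q.natDegree le_rfl ?_).1
  · intro t ht h0
    apply hJ t ht
    have h1 := congrArg (algebraMap ↥(K⟮(⟨J, hJF⟩ : F)⟯) F) h0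
    rw [← aeval_algebraMap_apply, map_zero, AdjoinSimple.algebraMap_gen] at h1
    have h2 := congrArg (algebraMap F (LaurentSeries K)) h1
    rw [← aeval_algebraMap_apply, map_zero] at h2
    exact h2
  · apply hinc
    rw [map_zero, Polynomial.hom_eval₂, AdjoinSimple.algebraMap_gen]
    have hcomp : (algebraMap F (LaurentSeries K)).comp
        ((aeval (⟨J, hJF⟩ : F) : K[X] →ₐ[K] F).toRingHom) = evJ J := by
      refine Polynomial.ringHom_ext ?_ ?_
      · intro c
        simp [evJ, ← IsScalarTower.algebraMap_apply]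
      · simp [evJ]
    rw [hcomp]
    exact hQ

/-- transitivity: `J'` algebraic over `K(J)` and `y` algebraic over `K(J')`. -/
theorem isIntegral_of_algRel_trans (F : IntermediateField K (LaurentSeries K))
    {J J' : LaurentSeries K} (hJF : J ∈ F) (hJ : ∀ t : K[X], t ≠ 0 → aeval J t ≠ 0)
    (hJ'F : J' ∈ F) (hJ' : ∀ t : K[X], t ≠ 0 → aeval J' t ≠ 0) (hJJ' : AlgRel K J J') (y : F)
    (hy : AlgRel K J' (y : LaurentSeries K)) :
    IsIntegral K⟮(⟨J, hJF⟩ : F)⟯ y := by
  set k : IntermediateField K F := K⟮(⟨J, hJF⟩ : F)⟯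
  set j' : F := ⟨J', hJ'F⟩
  have h1 : IsIntegral k j' := isIntegral_of_algRel F hJF hJ j' hJJ'
  have h2 : IsIntegral K⟮j'⟯ y := isIntegral_of_algRel F hJ'F hJ' y hy
  -- the finite extension `E = k(j')` of `k`
  set E : IntermediateField k F := IntermediateField.adjoin k {j'}
  haveI : FiniteDimensional k E := IntermediateField.adjoin.finiteDimensional h1
  have hle : K⟮j'⟯ ≤ E.restrictScalars K := by
    rw [IntermediateField.adjoin_le_iff]
    rintro x hx
    rw [Set.mem_singleton_iff] at hx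
    subst hx
    exact IntermediateField.mem_adjoin_simple_self k j'
  have h3 : IsIntegral E y := by
    let φ : K⟮j'⟯ →+* E := (IntermediateField.inclusion hle).toRingHom
    have := IsIntegral.map_of_comp_eq (R := K⟮j'⟯) (S := F) (T := E) (U := F) φ
      (RingHom.id F) (RingHom.ext fun x => rfl) h2
    simpa using this
  exact isIntegral_trans y h3

/-- a field generated over `K` by finitely many elements integral over a subfield `k ⊇ K` is
finite over `k`. -/
theorem finiteDimensional_of_adjoin_eq_top {F : Type*} [Field F] [Algebra K F]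
    (k : IntermediateField K F) (T : Set F) (hT : T.Finite)
    (htop : IntermediateField.adjoin K T = ⊤) (hint : ∀ t ∈ T, IsIntegral k t) :
    FiniteDimensional k F := by
  haveI : Finite T := hT.to_subtype
  have hfd : FiniteDimensional k (IntermediateField.adjoin k T) :=
    IntermediateField.finiteDimensional_adjoin hint
  have h1 : IntermediateField.adjoin k T = ⊤ := by
    rw [← IntermediateField.restrictScalars_eq_top_iff (K := K)]
    refine top_unique ?_
    rw [← htop, IntermediateField.adjoin_le_iff]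
    exact fun t ht => IntermediateField.subset_adjoin k T ht
  rw [h1] at hfd
  exact (IntermediateField.topEquiv (F := k) (E := F)).toLinearEquiv.finiteDimensional

/-- the generators generate. -/
theorem adjoin_preimage_eq_top (T : Set (LaurentSeries K)) :
    IntermediateField.adjoin K
      ((fun x : ↥(IntermediateField.adjoin K T) => (x : LaurentSeries K)) ⁻¹' T) = ⊤ := by
  apply IntermediateField.lift_injective
  rw [IntermediateField.lift_adjoin, IntermediateField.lift_top]
  congr 1
  ext x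
  constructor
  · rintro ⟨y, hy, rfl⟩
    exact hy
  · intro hx
    exact ⟨⟨x, IntermediateField.subset_adjoin K T hx⟩, hx, rfl⟩

theorem transcendental_of_aeval_ne_zero (F : IntermediateField K (LaurentSeries K))
    {J : LaurentSeries K} (hJF : J ∈ F) (hJ : ∀ t : K[X], t ≠ 0 → aeval J t ≠ 0) :
    Transcendental K (⟨J, hJF⟩ : F) := by
  rw [transcendental_iff]
  intro t ht
  by_contra h0
  apply hJ t h0
  have h2 := congrArg (algebraMap F (LaurentSeries K)) ht
  rw [← aeval_algebraMap_apply, map_zero] at h2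
  exact h2

/-- **Finiteness criterion.**  A subfield of `K((q))` generated over `K` by a finite set `T` is
finite over `K(J)` as soon as every generator is algebraic over `K(J)`, directly or through an
intermediate `J'`. -/
theorem exists_coord_of_gens {J J' : LaurentSeries K} (T : Set (LaurentSeries K))
    (hT : T.Finite) (hJT : J ∈ IntermediateField.adjoin K T)
    (hJ'T : J' ∈ IntermediateField.adjoin K T)
    (hJ : ∀ t : K[X], t ≠ 0 → aeval J t ≠ 0) (hJ' : ∀ t : K[X], t ≠ 0 → aeval J' t ≠ 0)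
    (hJJ' : AlgRel K J J') (halg : ∀ t ∈ T, AlgRel K J t ∨ AlgRel K J' t) :
    ∃ x : IntermediateField.adjoin K T, Transcendental K x ∧
      FiniteDimensional K⟮x⟯ (IntermediateField.adjoin K T) := by
  refine ⟨⟨J, hJT⟩, transcendental_of_aeval_ne_zero _ hJT hJ, ?_⟩
  have htop := adjoin_preimage_eq_top T
  have hfin : ((fun x : ↥(IntermediateField.adjoin K T) => (x : LaurentSeries K)) ⁻¹' T).Finite :=
    hT.preimage (Subtype.val_injective.injOn)
  refine finiteDimensional_of_adjoin_eq_top
    (K⟮(⟨J, hJT⟩ : ↥(IntermediateField.adjoin K T))⟯) _ hfin htop ?_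
  intro t ht
  rcases halg (t : LaurentSeries K) ht with h | h
  · exact isIntegral_of_algRel _ hJT hJ t h
  · exact isIntegral_of_algRel_trans _ hJT hJ hJ'T hJ' hJJ' t h

end Generic

/-! ### generic Hecke inputs -/

section HI

variable {K F F' : Type*} [Field K] [Field F] [Field F'] [Algebra K F] [Algebra K F']
  [IsAlgClosed K] [CharZero K]

/-- **Generic HI.**  Over an algebraically closed field of characteristic zero, any two
`K`-algebra homomorphisms between function fields of one variable satisfy `F1.CorrInputs`. -/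
theorem corrInputs_of_coord (hF : ∃ x : F, Transcendental K x ∧ FiniteDimensional K⟮x⟯ F)
    (hF' : ∃ x : F', Transcendental K x ∧ FiniteDimensional K⟮x⟯ F') (φ ψ : F →ₐ[K] F') :
    CorrInputs φ ψ := by
  obtain ⟨x', hx', hfin'⟩ := hF'
  haveI : FiniteDimensional K⟮x'⟯ F' := hfin'
  haveI hP : HasPrincipalDivisors K F' := Fermat.Agent.Lib.RR.H864.hasPrincipalDivisors x' hx'
  have hfinφ := Fermat.Agent.S29.H812.finiteAlong hF ⟨x', hx', hfin'⟩ φ
  have hfinψ := Fermat.Agent.S29.H812.finiteAlong hF ⟨x', hx', hfin'⟩ ψ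
  have hφ := Fermat.Agent.S29.H812.isIntegral_of_finiteAlong hfinφ
  have hψ := Fermat.Agent.S29.H812.isIntegral_of_finiteAlong hfinψ
  exact ⟨hφ, hψ, hP, hfinψ, Fermat.Agent.S29.H812.fundamentalIdentityAlong hF φ hfinφ hφ,
    Fermat.Agent.S29.H812.normFormulaAlong hF ψ hfinψ⟩

end HI

/-! ### the fields `F1 M` and `F1p M p` -/

/-- every division value is algebraic over `ℚ(j)`. -/
def DivRel (M : ℕ) : Prop := ∀ a : ZMod M, a ≠ 0 → AlgRel ℚ jq (divGen M a)

section F1

variable (L : Type*) [Field L] [Algebra ℚ L]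

theorem JK_rat : JK ℚ = jq := by
  rw [JK, coeffEmb]
  exact coeffMap_id jq

/-- `j(q^d)` is algebraic over `ℚ(j)` (S24). -/
theorem algRel_jqd (d : ℕ) [NeZero d] : AlgRel ℚ jq (qExpand ℚ d jq) := by
  have hmem : qExpand ℚ d jq ∈ AK ℚ d := by
    refine Algebra.subset_adjoin ⟨qExpand ℚ d jq, mem_divisorExpansions d dvd_rfl, ?_⟩
    rw [coeffEmb]
    exact coeffMap_id _
  obtain ⟨Q, hQ0, -, hQ⟩ := algDeg_of_mem_AK (algebraMap ℚ ℂ) (hyp_complex_card d) hmem
  rw [JK_rat] at hQ
  exact ⟨Q, hQ0, hQ⟩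

theorem algRel_coeffEmb {J x : LaurentSeries ℚ} (h : AlgRel ℚ J x) :
    AlgRel L (coeffEmb L J) (coeffEmb L x) :=
  h.coeffMap (algebraMap ℚ L)

theorem algRel_qExpand {K : Type*} [Field K] (p : ℕ) [NeZero p] {J x : LaurentSeries K}
    (h : AlgRel K J x) : AlgRel K (qExpand K p J) (qExpand K p x) := by
  obtain ⟨Q, hQ0, hQ⟩ := h
  exact ⟨Q, hQ0, by rw [eval₂_evJ_qExpand, hQ, map_zero]⟩

theorem aeval_coeffEmb_jq_ne_zero {t : L[X]} (ht : t ≠ 0) : aeval (coeffEmb L jq) t ≠ 0 :=
  aeval_JK_ne_zero L ht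

theorem aeval_qExpand_ne_zero {K : Type*} [Field K] (p : ℕ) [NeZero p] {J : LaurentSeries K}
    (hJ : ∀ t : K[X], t ≠ 0 → aeval J t ≠ 0) {t : K[X]} (ht : t ≠ 0) :
    aeval (qExpand K p J) t ≠ 0 := by
  have h := Polynomial.aeval_algHom_apply (qExpandAlgHomC K p) J t
  rw [qExpandAlgHomC_apply, qExpandAlgHomC_apply] at h
  rw [h, Ne, inf_qExpand_eq_zero_iff]
  exact hJ t ht

/-- the generators of `F1 M`. -/
def gensF1 (M : ℕ) : Set (LaurentSeries ℚ) := divisorExpansions M ∪ divGens M

theorem finite_divisorExpansions (M : ℕ) [NeZero M] : (divisorExpansions M).Finite := by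
  classical
  refine ((M.divisors : Set ℕ).toFinite.image
    (fun d => if h : d = 0 then (0 : LaurentSeries ℚ) else
      haveI : NeZero d := ⟨h⟩
      qExpand ℚ d jq)).subset ?_
  rintro x ⟨d, hne, hd, rfl⟩
  refine ⟨d, ?_, ?_⟩
  · exact Finset.mem_coe.mpr (Nat.mem_divisors.mpr ⟨hd, NeZero.ne M⟩)
  · simp only
    rw [dif_neg (NeZero.ne d)]

theorem finite_divGens (M : ℕ) [NeZero M] : (divGens M).Finite := by
  refine ((Set.finite_univ (α := ZMod M)).image (fun a => divGen M a)).subset ?_
  rintro x ⟨a, -, rfl⟩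
  exact ⟨a, Set.mem_univ _, rfl⟩

theorem finite_gensF1 (M : ℕ) [NeZero M] : (gensF1 M).Finite :=
  (finite_divisorExpansions M).union (finite_divGens M)

theorem F1_eq_adjoin (M : ℕ) : F1 M = IntermediateField.adjoin ℚ (gensF1 M) := rfl

theorem F1p_eq_adjoin (M p : ℕ) [NeZero p] :
    F1p M p = IntermediateField.adjoin ℚ (gensF1 M ∪ ⇑(qExpandₐ p) '' gensF1 M) := by
  rw [F1p, F1_eq_adjoin, IntermediateField.adjoin_map, IntermediateField.adjoin_union]

theorem F1L_eq_adjoin (M : ℕ) :
    F1L L M = IntermediateField.adjoin L (⇑(coeffEmb L) '' gensF1 M) := by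
  rw [F1L, F1_eq_adjoin]
  exact H368.laurentBaseChange_adjoin L _

theorem F1pL_eq_adjoin (M p : ℕ) [NeZero p] :
    F1pL L M p = IntermediateField.adjoin L
      (⇑(coeffEmb L) '' (gensF1 M ∪ ⇑(qExpandₐ p) '' gensF1 M)) := by
  rw [F1pL, F1p_eq_adjoin]
  exact H368.laurentBaseChange_adjoin L _

variable {L}

theorem algRel_gensF1 {M : ℕ} (hP : DivRel M) {s : LaurentSeries ℚ} (hs : s ∈ gensF1 M) :
    AlgRel ℚ jq s := by
  rcases hs with ⟨d, hne, -, rfl⟩ | ⟨a, ha, rfl⟩
  · haveI := hne
    exact algRel_jqd d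
  · exact hP a ha

variable (L)

/-- **`L·F1(M)` is a function field of one variable**: finite over `L(j)`. -/
theorem exists_coord_F1L (M : ℕ) [NeZero M] (hP : DivRel M) :
    ∃ x : F1L L M, Transcendental L x ∧ FiniteDimensional L⟮x⟯ (F1L L M) := by
  rw [F1L_eq_adjoin]
  have hJ : ∀ t : L[X], t ≠ 0 → aeval (coeffEmb L jq) t ≠ 0 := fun t ht =>
    aeval_coeffEmb_jq_ne_zero L ht
  have hjmem : jq ∈ gensF1 M := by
    have h := mem_divisorExpansions M (one_dvd M)
    rw [qExpand_one_apply] at h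
    exact Or.inl h
  have hJT : coeffEmb L jq ∈ IntermediateField.adjoin L (⇑(coeffEmb L) '' gensF1 M) :=
    IntermediateField.subset_adjoin L _ ⟨jq, hjmem, rfl⟩
  refine exists_coord_of_gens (J := coeffEmb L jq) (J' := coeffEmb L jq) _
    ((finite_gensF1 M).image _) hJT hJT hJ hJ
    (algRel_coeffEmb L (algRel_gensF1 hP hjmem)) ?_
  rintro _ ⟨s, hs, rfl⟩
  exact Or.inl (algRel_coeffEmb L (algRel_gensF1 hP hs))

/-- **`L·F1(M; p)` is a function field of one variable**: finite over `L(j)`. -/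
theorem exists_coord_F1pL (M p : ℕ) [NeZero M] [NeZero p] (hP : DivRel M) :
    ∃ x : F1pL L M p, Transcendental L x ∧ FiniteDimensional L⟮x⟯ (F1pL L M p) := by
  rw [F1pL_eq_adjoin]
  have hJ : ∀ t : L[X], t ≠ 0 → aeval (coeffEmb L jq) t ≠ 0 := fun t ht =>
    aeval_coeffEmb_jq_ne_zero L ht
  have hJ' : ∀ t : L[X], t ≠ 0 → aeval (coeffEmb L (qExpand ℚ p jq)) t ≠ 0 := by
    intro t ht
    rw [← qExpand_coeffEmb]
    exact aeval_qExpand_ne_zero p hJ ht
  have hjmem : jq ∈ gensF1 M := by
    have h := mem_divisorExpansions M (one_dvd M)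
    rw [qExpand_one_apply] at h
    exact Or.inl h
  have hJT : coeffEmb L jq ∈ IntermediateField.adjoin L
      (⇑(coeffEmb L) '' (gensF1 M ∪ ⇑(qExpandₐ p) '' gensF1 M)) :=
    IntermediateField.subset_adjoin L _ ⟨jq, Or.inl hjmem, rfl⟩
  have hJ'T : coeffEmb L (qExpand ℚ p jq) ∈ IntermediateField.adjoin L
      (⇑(coeffEmb L) '' (gensF1 M ∪ ⇑(qExpandₐ p) '' gensF1 M)) :=
    IntermediateField.subset_adjoin L _ ⟨qExpand ℚ p jq, Or.inr ⟨jq, hjmem, rfl⟩, rfl⟩
  refine exists_coord_of_gens (J := coeffEmb L jq) (J' := coeffEmb L (qExpand ℚ p jq)) _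
    (((finite_gensF1 M).union ((finite_gensF1 M).image _)).image _) hJT hJ'T hJ hJ'
    (algRel_coeffEmb L (algRel_jqd p)) ?_
  rintro _ ⟨s, hs | ⟨s', hs', rfl⟩, rfl⟩
  · exact Or.inl (algRel_coeffEmb L (algRel_gensF1 hP hs))
  · exact Or.inr (algRel_coeffEmb L (algRel_qExpand p (algRel_gensF1 hP hs')))

end F1

/-! ### `CorrInputs` for the degeneracy maps -/

section Corr

variable (L : Type*) [Field L] [Algebra ℚ L] [IsAlgClosed L] [CharZero L]

/-- **HI1** for `T_p = α_* β^*` (any `M, p ≠ 0`), from `DivRel M`. -/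
theorem corrInputs_beta_alpha (M p : ℕ) [NeZero M] [NeZero p] (hP : DivRel M) :
    CorrInputs (beta1 L M p) (alpha1 L M p) :=
  corrInputs_of_coord (exists_coord_F1L L M hP) (exists_coord_F1pL L M p hP) _ _

/-- **HI1** for the transposed correspondence `β_* α^*`. -/
theorem corrInputs_alpha_beta (M p : ℕ) [NeZero M] [NeZero p] (hP : DivRel M) :
    CorrInputs (alpha1 L M p) (beta1 L M p) :=
  corrInputs_of_coord (exists_coord_F1L L M hP) (exists_coord_F1pL L M p hP) _ _

end Corr

end Fermat.Agent.S48.H150
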