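import Fermat.Agent.S48.H150.HI1
import Fermat.Agent.S48.Red1.Asm

/-!
# S48 / Tower A1 / A1-RED, leaf FIN (helper150): the `finite` field of `Red1.TopLeaves` and the
finiteness instance of `Red1.coreGen_top`

For a field `F₀ = ℚ(T) ⊆ ℚ((q))`, `T` finite, every element of `T` a root of a nonzero polynomial
over `ℚ[j]`, `j ∈ F₀` (e.g. `F₀ = F1 M`, every `M ≠ 0`):

* `topLeaves_finite`  : for EVERY subfield `E` of `ℚ̄`, `E · F₀` (`Red1.FcT F₀ E`) is spanned over
  `E(j)` (`ratField (EcG E cstG) j`) by a finite subset — the field `finite` of `Red1.TopLeaves`,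
  VERBATIM;
* `finiteDimensional_OmG_j` : `ℚ̄ · F₀` is finite over `ℚ̄(j)`;
* `finiteDimensional_OmG_coord` : `ℚ̄ · F₀` is finite over `ℚ̄(ι x)` for every admissible
  coordinate `x` of level `M` (`S18.Mod.IsCoordinate M ℓ x S`: `j`, `t₂`, `t₃`) — the instance
  argument of `Red1.coreGen_top`.

Instances for `F₀ = F1 M`: `topLeaves_finite_F1`, `finiteDimensional_F1_coord`.
-/

set_option autoImplicit false
set_option linter.unusedSectionVars false
set_option linter.style.haveILetI false

noncomputable section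

open Polynomial ModularCurve IntermediateField AlgebraicCurve

namespace Fermat.Agent.S48.H150

open Fermat.Agent.S18 Fermat.Agent.S18.Alg Fermat.Agent.S18.Mod Fermat.Agent.S48.H248
open Fermat.Agent.S48.Red1 Fermat.Agent.S24 Fermat.Agent.S24.Deg457 Fermat.Agent.S48.F1

section GenK

variable {K : Type*} [Field K]

/-- `K(J)` inside `F` (the algebra structures are the ones of the generic context). -/
def simpleIn (F : IntermediateField K (LaurentSeries K)) {J : LaurentSeries K} (hJF : J ∈ F) :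
    IntermediateField K F := K⟮(⟨J, hJF⟩ : F)⟯

theorem isIntegral_simpleIn (F : IntermediateField K (LaurentSeries K)) {J : LaurentSeries K}
    (hJF : J ∈ F) (hJ : ∀ t : K[X], t ≠ 0 → aeval J t ≠ 0) (y : F)
    (hy : AlgRel K J (y : LaurentSeries K)) : IsIntegral (simpleIn F hJF) y :=
  isIntegral_of_algRel F hJF hJ y hy

/-- induction principle for `simpleIn`, with an arbitrary ring homomorphism in the constant
case. -/
theorem simpleIn_induction (F : IntermediateField K (LaurentSeries K)) {J : LaurentSeries K}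
    (hJF : J ∈ F) (P : F → Prop) (hgen : P ⟨J, hJF⟩)
    (hconst : ∀ c : K, P (algebraMap K F c))
    (hadd : ∀ x y, P x → P y → P (x + y)) (hinv : ∀ x, P x → P x⁻¹)
    (hmul : ∀ x y, P x → P y → P (x * y)) {a : F} (ha : a ∈ simpleIn F hJF) : P a := by
  unfold simpleIn at ha
  induction ha using IntermediateField.adjoin_induction with
  | mem x hx =>
    rw [Set.mem_singleton_iff] at hx
    rw [hx]
    exact hgen
  | algebraMap c => exact hconst c
  | add x y _ _ hx hy => exact hadd x y hx hy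
  | inv x _ hx => exact hinv x hx
  | mul x y _ _ hx hy => exact hmul x y hx hy

/-- induction principle for `adjoin K T` along the generators. -/
theorem adjoin_induction_gens (T : Set (LaurentSeries K))
    (P : ↥(IntermediateField.adjoin K T) → Prop)
    (hgen : ∀ x : ↥(IntermediateField.adjoin K T), (x : LaurentSeries K) ∈ T → P x)
    (hconst : ∀ c : K, P (algebraMap K ↥(IntermediateField.adjoin K T) c))
    (hadd : ∀ x y, P x → P y → P (x + y)) (hinv : ∀ x, P x → P x⁻¹)
    (hmul : ∀ x y, P x → P y → P (x * y)) (g : ↥(IntermediateField.adjoin K T)) : P g := by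
  have hg : g ∈ IntermediateField.adjoin K
      ((fun x : ↥(IntermediateField.adjoin K T) => (x : LaurentSeries K)) ⁻¹' T) := by
    rw [adjoin_preimage_eq_top]
    exact IntermediateField.mem_top
  induction hg using IntermediateField.adjoin_induction with
  | mem x hx => exact hgen x hx
  | algebraMap c => exact hconst c
  | add x y _ _ hx hy => exact hadd x y hx hy
  | inv x _ hx => exact hinv x hx
  | mul x y _ _ hx hy => exact hmul x y hx hy

end GenK

section Generic

variable {F₀ : IntermediateField ℚ (LaurentSeries ℚ)}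

theorem aeval_jq_ne_zero {t : ℚ[X]} (ht : t ≠ 0) : aeval jq t ≠ 0 := by
  have h := aeval_JK_ne_zero ℚ ht
  rwa [JK_rat] at h

theorem ratCast_mem_subfield (E : Subfield Qb) (c : ℚ) : algebraMap ℚ Qb c ∈ E := by
  rw [eq_ratCast]
  exact SubfieldClass.ratCast_mem E c

theorem embG_ratHom (f : ℚ →+* F₀) (c : ℚ) :
    embG F₀ (f c) = cstG F₀ (algebraMap ℚ Qb c) := by
  rw [eq_ratCast f c, eq_ratCast (algebraMap ℚ Qb) c, map_ratCast, map_ratCast]

variable (hj : jq ∈ F₀) (E : Subfield Qb) (j : OmG F₀)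
  (hjc : (j : LaurentSeries Qb) = coeffEmb Qb jq)

include hj hjc in
theorem embG_jq : embG F₀ ⟨jq, hj⟩ = j := Subtype.ext (by rw [coe_embG, hjc])

theorem cstG_mem_ratField {c : Qb} (hc : c ∈ E) : cstG F₀ c ∈ ratField (EcG E (cstG F₀)) j :=
  Subfield.subset_closure (Or.inl ((mem_EcG_iff _).mpr ⟨c, hc, rfl⟩))

theorem j_mem_ratField : j ∈ ratField (EcG E (cstG F₀)) j :=
  Subfield.subset_closure (Or.inr rfl)

include hj hjc in
/-- `E(j) ⊆ E · F₀`. -/
theorem ratField_le_FcT : ratField (EcG E (cstG F₀)) j ≤ FcT F₀ E := by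
  unfold ratField
  rw [Subfield.closure_le]
  rintro y (hy | hy)
  · exact EcG_le_FcT E hy
  · rw [Set.mem_singleton_iff] at hy
    rw [hy, ← embG_jq hj j hjc]
    exact embG_mem_FcT E _

include hj hjc in
/-- `embG` maps `ℚ(j)` into `E(j)`. -/
theorem embG_mem_ratField {a : F₀} (ha : a ∈ simpleIn F₀ hj) :
    embG F₀ a ∈ ratField (EcG E (cstG F₀)) j := by
  refine simpleIn_induction F₀ hj (fun a => embG F₀ a ∈ ratField (EcG E (cstG F₀)) j)
    ?_ ?_ ?_ ?_ ?_ ha
  · show embG F₀ ⟨jq, hj⟩ ∈ _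
    rw [embG_jq hj j hjc]
    exact j_mem_ratField E j
  · intro c
    show embG F₀ _ ∈ _
    rw [embG_ratHom]
    exact cstG_mem_ratField E j (ratCast_mem_subfield E c)
  · intro x y hx hy
    show embG F₀ _ ∈ _
    rw [map_add]
    exact add_mem hx hy
  · intro x hx
    show embG F₀ _ ∈ _
    rw [map_inv₀]
    exact inv_mem hx
  · intro x y hx hy
    show embG F₀ _ ∈ _
    rw [map_mul]
    exact mul_mem hx hy

include hj hjc in
/-- a generator algebraic over `ℚ(j)` is integral over `E(j)`. -/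
theorem isIntegral_embG (y : F₀) (hy : AlgRel ℚ jq (y : LaurentSeries ℚ)) :
    IsIntegral (ratField (EcG E (cstG F₀)) j) (embG F₀ y) := by
  have h1 := isIntegral_simpleIn F₀ hj (fun t ht => aeval_jq_ne_zero ht) y hy
  let φ : ↥(simpleIn F₀ hj) →+* ratField (EcG E (cstG F₀)) j :=
    ((embG F₀).comp (algebraMap ↥(simpleIn F₀ hj) F₀)).codRestrict _
      (fun a => embG_mem_ratField hj E j hjc a.2)
  exact IsIntegral.map_of_comp_eq φ (embG F₀) (RingHom.ext fun a => rfl) h1

/-- `E · F₀` lies in the field generated over `E(j)` by the images of the generators. -/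
theorem FcT_le_adjoin (T : Set (LaurentSeries ℚ)) (hF₀ : F₀ = IntermediateField.adjoin ℚ T)
    (k : Subfield (OmG F₀)) (hk : ∀ c ∈ E, cstG F₀ c ∈ k)
    (A : IntermediateField k (OmG F₀))
    (hA : ∀ y : F₀, (y : LaurentSeries ℚ) ∈ T → embG F₀ y ∈ A) :
    ∀ f ∈ FcT F₀ E, f ∈ A := by
  subst hF₀
  have hemb : ∀ g : ↥(IntermediateField.adjoin ℚ T), embG _ g ∈ A := by
    refine adjoin_induction_gens T (fun g => embG _ g ∈ A) hA ?_ ?_ ?_ ?_
    · intro c
      show embG _ _ ∈ A
      rw [embG_ratHom]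
      exact A.algebraMap_mem ⟨_, hk _ (ratCast_mem_subfield E c)⟩
    · intro x y hx hy
      show embG _ _ ∈ A
      rw [map_add]
      exact add_mem hx hy
    · intro x hx
      show embG _ _ ∈ A
      rw [map_inv₀]
      exact inv_mem hx
    · intro x y hx hy
      show embG _ _ ∈ A
      rw [map_mul]
      exact mul_mem hx hy
  intro f hf
  unfold FcT at hf
  induction hf using Subfield.closure_induction with
  | mem y hy =>
    rcases hy with hy | ⟨g, rfl⟩
    · obtain ⟨c, hc, rfl⟩ := (mem_EcG_iff _).mp hy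
      exact A.algebraMap_mem ⟨_, hk c hc⟩
    · exact hemb g
  | one => exact one_mem A
  | add x y _ _ hx hy => exact add_mem hx hy
  | neg x _ hx => exact neg_mem hx
  | inv x _ hx => exact inv_mem hx
  | mul x y _ _ hx hy => exact mul_mem hx hy

include hj hjc in
/-- **The `finite` field of `Red1.TopLeaves`**, generic in `F₀ = ℚ(T)`. -/
theorem topLeaves_finite (T : Set (LaurentSeries ℚ)) (hT : T.Finite)
    (hF₀ : F₀ = IntermediateField.adjoin ℚ T) (halg : ∀ t ∈ T, AlgRel ℚ jq t) :
    ∃ s : Finset (OmG F₀), (s : Set (OmG F₀)) ⊆ FcT F₀ E ∧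
      ∀ f ∈ FcT F₀ E, f ∈ Submodule.span (ratField (EcG E (cstG F₀)) j) (s : Set (OmG F₀)) := by
  classical
  set k : Subfield (OmG F₀) := ratField (EcG E (cstG F₀)) j with hk
  -- the generators inside `Ω'`
  set S : Set (OmG F₀) := (embG F₀) '' {y : F₀ | (y : LaurentSeries ℚ) ∈ T} with hS
  have hSfin : S.Finite := (hT.preimage (Subtype.val_injective.injOn)).image _
  haveI : Finite S := hSfin.to_subtype
  have hint : ∀ x ∈ S, IsIntegral k x := by
    rintro _ ⟨y, hy, rfl⟩
    exact isIntegral_embG hj E j hjc y (halg _ hy)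
  set A : IntermediateField k (OmG F₀) := IntermediateField.adjoin k S with hA
  haveI hfd : FiniteDimensional k A := IntermediateField.finiteDimensional_adjoin hint
  -- `A ⊆ E · F₀`
  have hkF : k ≤ FcT F₀ E := ratField_le_FcT hj E j hjc
  have hAF : ∀ f ∈ A, f ∈ FcT F₀ E := by
    have hle : A ≤ (FcT F₀ E).toIntermediateField (fun x => hkF x.2) := by
      rw [hA, IntermediateField.adjoin_le_iff]
      rintro _ ⟨y, -, rfl⟩
      exact embG_mem_FcT E y
    exact fun f hf => hle hf
  -- `E · F₀ ⊆ A`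
  have hFA : ∀ f ∈ FcT F₀ E, f ∈ A :=
    FcT_le_adjoin E T hF₀ k (fun c hc => cstG_mem_ratField E j hc) A
      (fun y hy => IntermediateField.subset_adjoin k S ⟨y, hy, rfl⟩)
  -- a finite spanning set
  obtain ⟨s₀, hs₀⟩ := (Module.finite_def.mp hfd)
  refine ⟨s₀.image (fun a : A => (a : OmG F₀)), ?_, ?_⟩
  · intro z hz
    rw [Finset.coe_image] at hz
    obtain ⟨a, -, rfl⟩ := hz
    exact hAF a a.2
  · intro f hf
    have h1 : (⟨f, hFA f hf⟩ : A) ∈ Submodule.span k (s₀ : Set A) := by
      rw [hs₀]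
      exact Submodule.mem_top
    have h2 := Submodule.apply_mem_span_image_of_mem_span (A.val.toLinearMap) h1
    rw [Finset.coe_image]
    exact h2

end Generic

/-! ### finiteness of `ℚ̄ · F₀` over `ℚ̄(x)` -/

section Coord

variable {F₀ : IntermediateField ℚ (LaurentSeries ℚ)}

theorem FcT_top : FcT F₀ (⊤ : Subfield Qb) = ⊤ := by
  have h := closure_FcT_union_LcG (F₀ := F₀) (⊤ : Subfield Qb)
  rw [eq_top_iff, ← h, Subfield.closure_le]
  rintro y (hy | ⟨c, rfl⟩)
  · exact hy
  · exact cstG_mem_FcT (Subfield.mem_top c)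

theorem span_subfield_le {Ω : Type*} [Field Ω] (k : Subfield Ω) {K : Type*} [Field K]
    [Algebra K Ω] (k' : IntermediateField K Ω) (h : ∀ c ∈ k, c ∈ k') (s : Set Ω) {f : Ω}
    (hf : f ∈ Submodule.span k s) : f ∈ Submodule.span k' s := by
  induction hf using Submodule.span_induction with
  | mem x hx => exact Submodule.subset_span hx
  | zero => exact Submodule.zero_mem _
  | add x y _ _ hx hy => exact Submodule.add_mem _ hx hy
  | smul c x _ hx =>
    have : c • x = (⟨(c : Ω), h c c.2⟩ : k') • x := rfl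
    rw [this]
    exact Submodule.smul_mem _ _ hx

/-- **`ℚ̄ · F₀` is finite over `ℚ̄(j)`.** -/
theorem finiteDimensional_OmG_j (hj : jq ∈ F₀) (j : OmG F₀)
    (hjc : (j : LaurentSeries Qb) = coeffEmb Qb jq) (T : Set (LaurentSeries ℚ)) (hT : T.Finite)
    (hF₀ : F₀ = IntermediateField.adjoin ℚ T) (halg : ∀ t ∈ T, AlgRel ℚ jq t) :
    FiniteDimensional (IntermediateField.adjoin Qb ({j} : Set (OmG F₀))) (OmG F₀) := by
  obtain ⟨s, -, hs⟩ := topLeaves_finite hj (⊤ : Subfield Qb) j hjc T hT hF₀ halg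
  refine Module.finite_def.mpr ⟨s, top_unique fun f _ => ?_⟩
  refine span_subfield_le _ _ ?_ _ (hs f (by rw [FcT_top]; exact Subfield.mem_top f))
  intro c hc
  unfold ratField at hc
  induction hc using Subfield.closure_induction with
  | mem y hy =>
    rcases hy with hy | hy
    · obtain ⟨c, -, rfl⟩ := (mem_EcG_iff _).mp hy
      exact IntermediateField.algebraMap_mem _ c
    · rw [Set.mem_singleton_iff] at hy
      rw [hy]
      exact IntermediateField.mem_adjoin_simple_self Qb j
  | one => exact one_mem _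
  | add x y _ _ hx hy => exact add_mem hx hy
  | neg x _ hx => exact neg_mem hx
  | inv x _ hx => exact inv_mem hx
  | mul x y _ _ hx hy => exact mul_mem hx hy

/-- an element of `ℚ̄ · F₀` with a simple pole at `q = 0` is transcendental over `ℚ̄`. -/
theorem transcendental_of_coeff_neg_one (x : OmG F₀)
    (hx : ((x : OmG F₀) : LaurentSeries Qb).coeff (-1) ≠ 0) : Transcendental Qb x := by
  refine FF.transcendental_of_not_mem_range ?_
  rintro ⟨c, hc⟩
  apply hx
  have h2 : ((algebraMap Qb (OmG F₀) c : OmG F₀) : LaurentSeries Qb)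
      = algebraMap Qb (LaurentSeries Qb) c := rfl
  rw [← hc, h2, algebraMap_laurentSeries_eq_single,
    HahnSeries.coeff_single_of_ne (by norm_num)]

variable {M : ℕ} [NeZero M] (hle : modularFunctionFieldFull M ≤ F₀)

theorem coe_iotaG_jOm :
    ((iotaG M F₀ hle (jOm M) : OmG F₀) : LaurentSeries Qb) = coeffEmb Qb jq := by
  rw [coe_iotaG]
  show coeffEmb Qb (qExpand ℚ 1 jq) = coeffEmb Qb jq
  rw [qExpand_one_apply]

include hle in
theorem jq_mem_of_full_le : jq ∈ F₀ := by
  have h := hle (jqd_mem_full M (one_dvd M))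
  rwa [qExpand_one_apply] at h

/-- **`ℚ̄ · F₀` is finite over `ℚ̄(ι x)`** for every admissible coordinate `x` of level `M`
(the instance argument of `Red1.coreGen_top`). -/
theorem finiteDimensional_OmG_coord (T : Set (LaurentSeries ℚ)) (hT : T.Finite)
    (hF₀ : F₀ = IntermediateField.adjoin ℚ T) (halg : ∀ t ∈ T, AlgRel ℚ jq t)
    {ℓ : ℕ} {x : Om M} {S : Finset (Om M)} (hx : IsCoordinate M ℓ x S) :
    FiniteDimensional (IntermediateField.adjoin Qb ({iotaG M F₀ hle x} : Set (OmG F₀)))
      (OmG F₀) := by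
  have hj : jq ∈ F₀ := jq_mem_of_full_le hle
  haveI hfd := finiteDimensional_OmG_j hj (iotaG M F₀ hle (jOm M)) (coe_iotaG_jOm hle) T hT hF₀
    halg
  have htj : Transcendental Qb (iotaG M F₀ hle (jOm M)) := by
    refine transcendental_of_coeff_neg_one _ ?_
    rw [coe_iotaG_jOm, coeffEmb_coeff, coeff_jq_neg_one, map_one]
    exact one_ne_zero
  rcases hx with ⟨-, rfl, -⟩ | ⟨-, X, hX1, -, hXc, -⟩
  · exact hfd
  · refine FF.finiteDimensional_adjoin_of_transcendental htj ?_
    refine transcendental_of_coeff_neg_one _ ?_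
    rw [coe_iotaG, hXc, coeffMap_coeff, hX1, map_one]
    exact one_ne_zero

end Coord

/-! ### the instances for `F₀ = F1 M` -/

section F1

variable (M : ℕ) [NeZero M]

/-- **`Red1.TopLeaves.finite` for `F1 M`** (VERBATIM), for every subfield `E` of `ℚ̄`. -/
theorem topLeaves_finite_F1 (E : Subfield Qb) :
    ∃ s : Finset (OmG (F1 M)), (s : Set (OmG (F1 M))) ⊆ FcT (F1 M) E ∧
      ∀ f ∈ FcT (F1 M) E, f ∈ Submodule.span
        (ratField (EcG E (cstG (F1 M))) (iotaG M (F1 M) (full_le_F1 M) (jOm M)))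
        (s : Set (OmG (F1 M))) :=
  topLeaves_finite (jq_mem_F1 M) E _ (coe_iotaG_jOm (full_le_F1 M)) (gensF1 M) (finite_gensF1 M)
    (F1_eq_adjoin M) (fun _ ht => algRel_gensF1 (divRel M) ht)

/-- **`ℚ̄ · F1 M` is finite over `ℚ̄(ι x)`** for every admissible coordinate `x` of level `M`. -/
theorem finiteDimensional_F1_coord {ℓ : ℕ} {x : Om M} {S : Finset (Om M)}
    (hx : IsCoordinate M ℓ x S) :
    FiniteDimensional
      (IntermediateField.adjoin Qb ({iotaG M (F1 M) (full_le_F1 M) x} : Set (OmG (F1 M))))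
      (OmG (F1 M)) :=
  finiteDimensional_OmG_coord (full_le_F1 M) (gensF1 M) (finite_gensF1 M) (F1_eq_adjoin M)
    (fun _ ht => algRel_gensF1 (divRel M) ht) hx

end F1

end Fermat.Agent.S48.H150
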